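import Mathlib
import Fermat.Agent.S05.XId
import Fermat.Agent.S05.SameRed

/-!
# Good reduction, part 2 (helper382): the kernel of reduction is a subgroup

`K` a field, `v` a valuation, `W` a Weierstrass curve over `K` with `v`-integral coefficients.
`InKer W v P` (from S05) says `P = 0` or `1 < v (x P)`.  We show that it is closed under
negation and addition (any residue characteristic), using only the `x`-coordinate identities of
`S05/XId.lean`.
-/

set_option autoImplicit false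
set_option linter.unusedSectionVars false
set_option linter.unusedVariables false

open WeierstrassCurve WeierstrassCurve.Affine WeierstrassCurve.Affine.Point

namespace Fermat.Agent.Lib.Red.H382

open Fermat.Agent.S05.SameRed Fermat.Agent.S05.XId

variable {K : Type*} [Field K] [DecidableEq K]
  {Γ₀ : Type*} [LinearOrderedCommGroupWithZero Γ₀]
  {W : Affine K} {v : Valuation K Γ₀}

lemma vle_b₂ (hW : IntegralCoeffs W v) : v W.b₂ ≤ 1 := by
  simp only [WeierstrassCurve.b₂]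
  exact val_add_le_one (by rw [pow_two]; exact val_mul_le_one hW.a₁ hW.a₁)
    (val_mul_le_one (val_natCast_le_one (v := v) 4) hW.a₂)

lemma vle_two : v (2 : K) ≤ 1 := val_natCast_le_one (v := v) 2

lemma vle_four : v (4 : K) ≤ 1 := val_natCast_le_one (v := v) 4

lemma vle_b₄ (hW : IntegralCoeffs W v) : v W.b₄ ≤ 1 := by
  simp only [WeierstrassCurve.b₄]
  exact val_add_le_one (val_mul_le_one vle_two hW.a₄) (val_mul_le_one hW.a₁ hW.a₃)

lemma vle_b₆ (hW : IntegralCoeffs W v) : v W.b₆ ≤ 1 := by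
  simp only [WeierstrassCurve.b₆]
  exact val_add_le_one (by rw [pow_two]; exact val_mul_le_one hW.a₃ hW.a₃)
    (val_mul_le_one vle_four hW.a₆)

lemma vle_b₈ (hW : IntegralCoeffs W v) : v W.b₈ ≤ 1 := by
  simp only [WeierstrassCurve.b₈]
  refine val_sub_le_one (val_add_le_one (val_sub_le_one (val_add_le_one ?_ ?_) ?_) ?_) ?_
  · exact val_mul_le_one (by rw [pow_two]; exact val_mul_le_one hW.a₁ hW.a₁) hW.a₆
  · exact val_mul_le_one (val_mul_le_one vle_four hW.a₂) hW.a₆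
  · exact val_mul_le_one (val_mul_le_one hW.a₁ hW.a₃) hW.a₄
  · exact val_mul_le_one hW.a₂ (by rw [pow_two]; exact val_mul_le_one hW.a₃ hW.a₃)
  · rw [pow_two]; exact val_mul_le_one hW.a₄ hW.a₄

/-- `v (1 - t) = 1` if `v t < 1`. -/
lemma val_one_sub_eq_one {t : K} (ht : v t < 1) : v (1 - t) = 1 := by
  have h : v (1 - t) = v (1 : K) := by
    rw [sub_eq_add_neg]
    exact v.map_add_eq_of_lt_left (by rw [Valuation.map_neg, map_one]; exact ht)
  rw [h, map_one]

lemma inv_val_lt_one {x : K} (hx : 1 < v x) : v x⁻¹ < 1 := by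
  rw [map_inv₀]
  exact inv_lt_one_of_one_lt₀ hx

lemma ne_zero_of_one_lt_val {x : K} (hx : 1 < v x) : x ≠ 0 := by
  rintro rfl
  rw [_root_.map_zero] at hx
  exact not_lt_zero hx

/-- abstract core of the chord case -/
lemma one_lt_of_sum_prod {E T U x₃ x₄ : K} (hE : v E < 1) (hT : v T < 1) (hU : v U = 1)
    (hsum : E * (x₃ + x₄) = T) (hprod : E * (x₃ * x₄) = U) : 1 < v x₃ := by
  by_contra hcon
  rw [not_lt] at hcon
  have e : U = x₃ * (T - E * x₃) := by
    rw [← hsum, ← hprod]; ring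
  have h1 : v (T - E * x₃) < 1 := by
    have : v (E * x₃) < 1 := val_mul_lt_one_left hE hcon
    rw [sub_eq_add_neg]
    exact val_add_lt_one hT (by rwa [Valuation.map_neg])
  have h2 : v U < 1 := by
    rw [e]
    exact val_mul_lt_one_right hcon h1
  rw [hU] at h2
  exact lt_irrefl _ h2

/-- chord case: if `1 < v x₁`, `1 < v x₂`, `x₁ ≠ x₂`, then `1 < v x(P₁ + P₂)`. -/
theorem one_lt_val_of_chord (hW : IntegralCoeffs W v) {x₁ x₂ x₃ x₄ : K}
    (hx₁ : 1 < v x₁) (hx₂ : 1 < v x₂)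
    (hsum : (x₁ - x₂) ^ 2 * (x₃ + x₄) = sumNum W x₁ x₂)
    (hprod : (x₁ - x₂) ^ 2 * (x₃ * x₄) = prodNum W x₁ x₂) : 1 < v x₃ := by
  have h10 := ne_zero_of_one_lt_val hx₁
  have h20 := ne_zero_of_one_lt_val hx₂
  set s₁ := x₁⁻¹ with hs₁
  set s₂ := x₂⁻¹ with hs₂
  have hv₁ : v s₁ < 1 := inv_val_lt_one hx₁
  have hv₂ : v s₂ < 1 := inv_val_lt_one hx₂
  have hv₁' : v s₁ ≤ 1 := hv₁.le
  have hv₂' : v s₂ ≤ 1 := hv₂.le
  have e₁ : x₁ * s₁ = 1 := mul_inv_cancel₀ h10
  have e₂ : x₂ * s₂ = 1 := mul_inv_cancel₀ h20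
  have hb2 := vle_b₂ hW
  have hb4 := vle_b₄ hW
  have hb6 := vle_b₆ hW
  have hb8 := vle_b₈ hW
  have hss : v (s₁ * s₂) < 1 := val_mul_lt_one_left hv₁ hv₂'
  have hsps : v (s₁ + s₂) < 1 := val_add_lt_one hv₁ hv₂
  apply one_lt_of_sum_prod (v := v) (E := (s₂ - s₁) ^ 2)
    (T := 2 * (s₁ + s₂) + W.b₂ * (s₁ * s₂) + W.b₄ * ((s₁ + s₂) * (s₁ * s₂)) +
      W.b₆ * (s₁ * s₂) ^ 2)
    (U := 1 - (W.b₄ * (s₁ * s₂) + W.b₆ * ((s₁ + s₂) * (s₁ * s₂)) + W.b₈ * (s₁ * s₂) ^ 2))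
    (x₄ := x₄)
  · rw [pow_two]
    have : v (s₂ - s₁) < 1 := by
      rw [sub_eq_add_neg]
      exact val_add_lt_one hv₂ (by rwa [Valuation.map_neg])
    exact val_mul_lt_one_left this this.le
  · refine val_add_lt_one (val_add_lt_one (val_add_lt_one ?_ ?_) ?_) ?_
    · exact val_mul_lt_one_right vle_two hsps
    · exact val_mul_lt_one_right hb2 hss
    · exact val_mul_lt_one_right hb4 (val_mul_lt_one_left hsps hss.le)
    · exact val_mul_lt_one_right hb6 (by rw [pow_two]; exact val_mul_lt_one_left hss hss.le)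
  · apply val_one_sub_eq_one
    refine val_add_lt_one (val_add_lt_one ?_ ?_) ?_
    · exact val_mul_lt_one_right hb4 hss
    · exact val_mul_lt_one_right hb6 (val_mul_lt_one_left hsps hss.le)
    · exact val_mul_lt_one_right hb8 (by rw [pow_two]; exact val_mul_lt_one_left hss hss.le)
  · have : (s₂ - s₁) ^ 2 = (x₁ - x₂) ^ 2 * (s₁ * s₂) ^ 2 := by
      have h : s₂ - s₁ = (x₁ - x₂) * (s₁ * s₂) := by
        calc s₂ - s₁ = (x₁ * s₁) * s₂ - (x₂ * s₂) * s₁ := by rw [e₁, e₂]; ring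
          _ = (x₁ - x₂) * (s₁ * s₂) := by ring
      rw [h]; ring
    rw [this, mul_right_comm, hsum]
    simp only [sumNum]
    have e₁' : x₁ = s₁⁻¹ := by rw [hs₁, inv_inv]
    have e₂' : x₂ = s₂⁻¹ := by rw [hs₂, inv_inv]
    have hs10 : s₁ ≠ 0 := inv_ne_zero h10
    have hs20 : s₂ ≠ 0 := inv_ne_zero h20
    rw [e₁', e₂']
    field_simp
    ring
  · have : (s₂ - s₁) ^ 2 = (x₁ - x₂) ^ 2 * (s₁ * s₂) ^ 2 := by
      have h : s₂ - s₁ = (x₁ - x₂) * (s₁ * s₂) := by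
        calc s₂ - s₁ = (x₁ * s₁) * s₂ - (x₂ * s₂) * s₁ := by rw [e₁, e₂]; ring
          _ = (x₁ - x₂) * (s₁ * s₂) := by ring
      rw [h]; ring
    rw [this, mul_right_comm, hprod]
    simp only [prodNum]
    have e₁' : x₁ = s₁⁻¹ := by rw [hs₁, inv_inv]
    have e₂' : x₂ = s₂⁻¹ := by rw [hs₂, inv_inv]
    have hs10 : s₁ ≠ 0 := inv_ne_zero h10
    have hs20 : s₂ ≠ 0 := inv_ne_zero h20
    rw [e₁', e₂']
    field_simp
    ring

/-- tangent case: if `1 < v x` and `x' * dblDen x = dblNum x` then `1 < v x'`. -/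
theorem one_lt_val_of_dbl (hW : IntegralCoeffs W v) {x x' : K} (hx : 1 < v x)
    (h : x' * dblDen W x = dblNum W x) : 1 < v x' := by
  have h0 := ne_zero_of_one_lt_val hx
  set s := x⁻¹ with hs
  have hv : v s < 1 := inv_val_lt_one hx
  have hv' : v s ≤ 1 := hv.le
  have hs0 : s ≠ 0 := inv_ne_zero h0
  have e' : x = s⁻¹ := by rw [hs, inv_inv]
  have hb2 := vle_b₂ hW
  have hb4 := vle_b₄ hW
  have hb6 := vle_b₆ hW
  have hb8 := vle_b₈ hW
  have hs2 : v (s ^ 2) < 1 := by rw [pow_two]; exact val_mul_lt_one_left hv hv'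
  have hs3 : v (s ^ 3) < 1 := by
    rw [pow_succ]; exact val_mul_lt_one_left hs2 hv'
  have hs4 : v (s ^ 4) < 1 := by
    rw [pow_succ]; exact val_mul_lt_one_left hs3 hv'
  -- `x' * C * s = U`
  have key : x' * ((4 + W.b₂ * s + 2 * W.b₄ * s ^ 2 + W.b₆ * s ^ 3) * s) =
      1 - (W.b₄ * s ^ 2 + 2 * W.b₆ * s ^ 3 + W.b₈ * s ^ 4) := by
    have h1 : (4 + W.b₂ * s + 2 * W.b₄ * s ^ 2 + W.b₆ * s ^ 3) * s = dblDen W x * s ^ 4 := by
      simp only [dblDen]
      rw [e']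
      field_simp
    have h2 : 1 - (W.b₄ * s ^ 2 + 2 * W.b₆ * s ^ 3 + W.b₈ * s ^ 4) = dblNum W x * s ^ 4 := by
      simp only [dblNum]
      rw [e']
      field_simp
      ring
    rw [h1, h2, ← mul_assoc, h]
  have hU : v (1 - (W.b₄ * s ^ 2 + 2 * W.b₆ * s ^ 3 + W.b₈ * s ^ 4)) = 1 := by
    apply val_one_sub_eq_one
    refine val_add_lt_one (val_add_lt_one ?_ ?_) ?_
    · exact val_mul_lt_one_right hb4 hs2
    · exact val_mul_lt_one_right (val_mul_le_one vle_two hb6) hs3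
    · exact val_mul_lt_one_right hb8 hs4
  have hC : v (4 + W.b₂ * s + 2 * W.b₄ * s ^ 2 + W.b₆ * s ^ 3) ≤ 1 := by
    refine val_add_le_one (val_add_le_one (val_add_le_one vle_four ?_) ?_) ?_
    · exact val_mul_le_one hb2 hv'
    · exact val_mul_le_one (val_mul_le_one vle_two hb4) hs2.le
    · exact val_mul_le_one hb6 hs3.le
  by_contra hcon
  rw [not_lt] at hcon
  have : v (x' * ((4 + W.b₂ * s + 2 * W.b₄ * s ^ 2 + W.b₆ * s ^ 3) * s)) < 1 :=
    val_mul_lt_one_right hcon (val_mul_lt_one_right hC hv)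
  rw [key, hU] at this
  exact lt_irrefl _ this

lemma inKer_neg {P : W.Point} (hP : InKer W v P) : InKer W v (-P) := by
  rcases P with _ | ⟨x, y, h⟩
  · exact hP
  · rw [Point.neg_some]
    exact hP

/-- **The kernel of reduction is closed under addition.** -/
theorem inKer_add (hW : IntegralCoeffs W v) {P Q : W.Point} (hP : InKer W v P)
    (hQ : InKer W v Q) : InKer W v (P + Q) := by
  rcases P with _ | ⟨x₁, y₁, h₁⟩
  · change InKer W v (0 + Q)
    rwa [zero_add]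
  rcases Q with _ | ⟨x₂, y₂, h₂⟩
  · change InKer W v (_ + 0)
    rwa [add_zero]
  have hx₁ : 1 < v x₁ := hP
  have hx₂ : 1 < v x₂ := hQ
  by_cases hx : x₁ = x₂
  · by_cases hy : y₁ = W.negY x₂ y₂
    · rw [Point.add_of_Y_eq hx hy]
      exact inKer_zero
    · have hyy : y₁ = y₂ := Affine.Y_eq_of_Y_ne h₁.1 h₂.1 hx hy
      subst hx
      subst hyy
      obtain ⟨x', y', h', hadd, hdbl, -⟩ := add_self_some h₁ hy
      rw [hadd, inKer_some]
      exact one_lt_val_of_dbl hW hx₁ hdbl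
  · obtain ⟨x₃, y₃, x₄, y₄, h₃, h₄, hadd, -, hsum, hprod⟩ := add_sub_some h₁ h₂ hx
    rw [hadd, inKer_some]
    exact one_lt_val_of_chord hW hx₁ hx₂ hsum hprod

theorem inKer_sub (hW : IntegralCoeffs W v) {P Q : W.Point} (hP : InKer W v P)
    (hQ : InKer W v Q) : InKer W v (P - Q) := by
  rw [sub_eq_add_neg]
  exact inKer_add hW hP (inKer_neg hQ)

end Fermat.Agent.Lib.Red.H382
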