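import Mathlib
import Fermat.Agent.S05.XId
import Fermat.Agent.S05.GoodRed

/-!
# Good reduction, part 1 (helper382): integral points and compatibility of slopes

`V` a valuation subring of a field `K`, `κ` its residue field, `W₀` a Weierstrass curve over `V`.
For two `V`-integral points whose reductions are not opposite, the slope of the chord / tangent
is in `V` and reduces to the slope of the reductions.
-/

set_option autoImplicit false
set_option linter.unusedSectionVars false
set_option linter.unusedVariables false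

open WeierstrassCurve WeierstrassCurve.Affine WeierstrassCurve.Affine.Point

namespace Fermat.Agent.Lib.Red.H382

universe u

variable {K : Type u} [Field K] [DecidableEq K] (V : ValuationSubring K)
  [DecidableEq (IsLocalRing.ResidueField V)] (W₀ : WeierstrassCurve V)

/-- the residue map -/
noncomputable abbrev rr : V →+* IsLocalRing.ResidueField V := IsLocalRing.residue V

lemma rr_eq_algebraMap : (rr V) = algebraMap V (IsLocalRing.ResidueField V) := rfl

lemma coe_eq_algebraMap (x : V) : (x : K) = algebraMap V K x := rfl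

lemma baseChangeK_eq : (W₀⁄K) = W₀.map (algebraMap V K) := rfl

lemma baseChangeκ_eq : (W₀⁄(IsLocalRing.ResidueField V)) = W₀.map (rr V) := rfl

lemma algebraMap_injective_VK : Function.Injective (algebraMap V K) :=
  Subtype.val_injective

/-- the equation over `K` of an integral point descends to `V` -/
lemma equation_V {x y : V} (h : (W₀⁄K).Equation (x : K) (y : K)) :
    W₀.toAffine.Equation x y :=
  (Affine.map_equation W₀.toAffine (algebraMap_injective_VK V) x y).mp h

/-- the reduction of an integral point satisfies the reduced equation -/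
lemma equation_κ {x y : V} (h : (W₀⁄K).Equation (x : K) (y : K)) :
    (W₀⁄(IsLocalRing.ResidueField V)).Equation (rr V x) (rr V y) :=
  Affine.Equation.map (rr V) (equation_V V W₀ h)

lemma Δ_κ_ne_zero (hΔ : IsUnit W₀.Δ) : (W₀⁄(IsLocalRing.ResidueField V)).Δ ≠ 0 := by
  have h : (W₀⁄(IsLocalRing.ResidueField V)).Δ = rr V W₀.Δ := by
    rw [baseChangeκ_eq]
    exact WeierstrassCurve.map_Δ W₀ (rr V)
  rw [h]
  exact (IsLocalRing.residue_ne_zero_iff_isUnit _).mpr hΔ

/-- with good reduction, the reduction of an integral point is nonsingular -/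
lemma nonsingular_κ (hΔ : IsUnit W₀.Δ) {x y : V} (h : (W₀⁄K).Equation (x : K) (y : K)) :
    (W₀⁄(IsLocalRing.ResidueField V)).Nonsingular (rr V x) (rr V y) :=
  (Affine.equation_iff_nonsingular_of_Δ_ne_zero (Δ_κ_ne_zero V W₀ hΔ)).mp (equation_κ V W₀ h)

lemma negY_K (x y : V) : (W₀⁄K).negY (x : K) (y : K) = ((W₀.toAffine.negY x y : V) : K) :=
  Affine.map_negY (W' := W₀.toAffine) (algebraMap V K) x y

lemma negY_κ (x y : V) :
    (W₀⁄(IsLocalRing.ResidueField V)).negY (rr V x) (rr V y) = rr V (W₀.toAffine.negY x y) :=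
  Affine.map_negY (W' := W₀.toAffine) (rr V) x y

lemma addX_K (x₁ x₂ ℓ : V) :
    (W₀⁄K).addX (x₁ : K) (x₂ : K) (ℓ : K) = ((W₀.toAffine.addX x₁ x₂ ℓ : V) : K) :=
  Affine.map_addX (W' := W₀.toAffine) (algebraMap V K) x₁ x₂ ℓ

lemma addX_κ (x₁ x₂ ℓ : V) :
    (W₀⁄(IsLocalRing.ResidueField V)).addX (rr V x₁) (rr V x₂) (rr V ℓ) =
      rr V (W₀.toAffine.addX x₁ x₂ ℓ) :=
  Affine.map_addX (W' := W₀.toAffine) (rr V) x₁ x₂ ℓ

lemma addY_K (x₁ x₂ y₁ ℓ : V) :
    (W₀⁄K).addY (x₁ : K) (x₂ : K) (y₁ : K) (ℓ : K) = ((W₀.toAffine.addY x₁ x₂ y₁ ℓ : V) : K) :=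
  Affine.map_addY (W' := W₀.toAffine) (algebraMap V K) x₁ y₁ x₂ ℓ

lemma addY_κ (x₁ x₂ y₁ ℓ : V) :
    (W₀⁄(IsLocalRing.ResidueField V)).addY (rr V x₁) (rr V x₂) (rr V y₁) (rr V ℓ) =
      rr V (W₀.toAffine.addY x₁ x₂ y₁ ℓ) :=
  Affine.map_addY (W' := W₀.toAffine) (rr V) x₁ y₁ x₂ ℓ

/-- The key identity `(y₁ - y₂) n = (x₁ - x₂) g` for two points on the curve. -/
lemma key_identity {R : Type*} [CommRing R] (W : Affine R) {x₁ y₁ x₂ y₂ : R}
    (h₁ : W.Equation x₁ y₁) (h₂ : W.Equation x₂ y₂) :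
    (y₁ - y₂) * (y₁ - W.negY x₂ y₂) =
      (x₁ - x₂) * (x₁ ^ 2 + x₁ * x₂ + x₂ ^ 2 + W.a₂ * (x₁ + x₂) + W.a₄ - W.a₁ * y₁) := by
  rw [Affine.equation_iff] at h₁ h₂
  simp only [Affine.negY]
  linear_combination h₁ - h₂

/-- **Compatibility of slopes.**  If the reductions of two integral points are not opposite,
the slope over `K` is integral and reduces to the slope over `κ`. -/
theorem exists_slope {x₁ y₁ x₂ y₂ : V}
    (h₁ : (W₀⁄K).Equation (x₁ : K) (y₁ : K)) (h₂ : (W₀⁄K).Equation (x₂ : K) (y₂ : K))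
    (hxy : ¬(rr V x₁ = rr V x₂ ∧
      rr V y₁ = (W₀⁄(IsLocalRing.ResidueField V)).negY (rr V x₂) (rr V y₂))) :
    ∃ ℓ : V, (W₀⁄K).slope (x₁ : K) (x₂ : K) (y₁ : K) (y₂ : K) = (ℓ : K) ∧
      (W₀⁄(IsLocalRing.ResidueField V)).slope (rr V x₁) (rr V x₂) (rr V y₁) (rr V y₂) =
        rr V ℓ := by
  have e₁ := equation_V V W₀ h₁
  have e₂ := equation_V V W₀ h₂
  have k₁ := equation_κ V W₀ h₁
  have k₂ := equation_κ V W₀ h₂
  by_cases hx : rr V x₁ = rr V x₂
  · -- same `x` in the reduction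
    have hy : rr V y₁ ≠ (W₀⁄(IsLocalRing.ResidueField V)).negY (rr V x₂) (rr V y₂) :=
      fun h => hxy ⟨hx, h⟩
    have hyy : rr V y₁ = rr V y₂ := Affine.Y_eq_of_Y_ne k₁ k₂ hx hy
    -- `n` is a unit
    set n : V := y₁ - W₀.toAffine.negY x₂ y₂ with hn
    set g : V := x₁ ^ 2 + x₁ * x₂ + x₂ ^ 2 + W₀.a₂ * (x₁ + x₂) + W₀.a₄ - W₀.a₁ * y₁ with hg
    have hrn : rr V n ≠ 0 := by
      rw [hn, map_sub, ← negY_κ, sub_ne_zero]
      exact hy
    obtain ⟨u, hu⟩ := ((IsLocalRing.residue_ne_zero_iff_isUnit n).mp hrn).exists_left_inv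
    have hnK : (n : K) ≠ 0 := by
      intro h0
      have : n = 0 := Subtype.ext h0
      rw [this, _root_.map_zero] at hrn
      exact hrn rfl
    have huK : (u : K) = (n : K)⁻¹ := by
      have : (u : K) * (n : K) = 1 := by
        have := congrArg (fun t : V => (t : K)) hu
        simpa using this
      exact eq_inv_of_mul_eq_one_left this
    have hur : rr V u = (rr V n)⁻¹ := by
      have : rr V u * rr V n = 1 := by rw [← map_mul, hu, map_one]
      exact eq_inv_of_mul_eq_one_left this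
    have key := key_identity W₀.toAffine e₁ e₂
    refine ⟨g * u, ?_, ?_⟩
    · -- over `K`
      have hnKcoe : (n : K) = (y₁ : K) - (W₀⁄K).negY (x₂ : K) (y₂ : K) := by
        rw [hn, negY_K]; rfl
      by_cases hxK : (x₁ : K) = (x₂ : K)
      · have hxV : x₁ = x₂ := Subtype.ext hxK
        have hyK : (y₁ : K) ≠ (W₀⁄K).negY (x₂ : K) (y₂ : K) := by
          intro h
          apply hnK
          rw [hnKcoe, h, sub_self]
        have hyyK : (y₁ : K) = (y₂ : K) := Affine.Y_eq_of_Y_ne h₁ h₂ hxK hyK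
        have hyV : y₁ = y₂ := Subtype.ext hyyK
        rw [Affine.slope_of_Y_ne hxK hyK]
        have hden : (y₁ : K) - (W₀⁄K).negY (x₁ : K) (y₁ : K) = (n : K) := by
          rw [hnKcoe, hxK, hyyK]
        have hnum : 3 * (x₁ : K) ^ 2 + 2 * (W₀⁄K).a₂ * (x₁ : K) + (W₀⁄K).a₄ -
            (W₀⁄K).a₁ * (y₁ : K) = (g : K) := by
          rw [hg, ← hxV]
          simp only [baseChangeK_eq, WeierstrassCurve.map_a₁, WeierstrassCurve.map_a₂,
            WeierstrassCurve.map_a₄, ← coe_eq_algebraMap]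
          push_cast
          ring
        rw [hden, hnum, div_eq_mul_inv, ← huK]
        rfl
      · rw [Affine.slope_of_X_ne hxK]
        have hd : (x₁ : K) - (x₂ : K) ≠ 0 := sub_ne_zero.mpr hxK
        have keyK : ((y₁ : K) - (y₂ : K)) * (n : K) = ((x₁ : K) - (x₂ : K)) * (g : K) := by
          have := congrArg (fun t : V => (t : K)) key
          simpa [hn, hg] using this
        rw [div_eq_iff hd]
        have : ((g * u : V) : K) = (g : K) * (n : K)⁻¹ := by
          rw [← huK]; rfl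
        rw [this]
        field_simp
        linear_combination keyK
    · -- over `κ`
      rw [Affine.slope_of_Y_ne hx hy]
      have hden : rr V y₁ - (W₀⁄(IsLocalRing.ResidueField V)).negY (rr V x₁) (rr V y₁) =
          rr V n := by
        rw [hn, map_sub, ← negY_κ, hx, hyy]
      have hnum : 3 * (rr V x₁) ^ 2 + 2 * (W₀⁄(IsLocalRing.ResidueField V)).a₂ * (rr V x₁) +
          (W₀⁄(IsLocalRing.ResidueField V)).a₄ -
            (W₀⁄(IsLocalRing.ResidueField V)).a₁ * (rr V y₁) = rr V g := by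
        rw [hg]
        simp only [baseChangeκ_eq, WeierstrassCurve.map_a₁, WeierstrassCurve.map_a₂,
          WeierstrassCurve.map_a₄, map_sub, map_add, map_mul, map_pow, ← hx]
        ring
      rw [hden, hnum, div_eq_mul_inv, ← hur, map_mul]
  · -- different `x` in the reduction
    have hxK : (x₁ : K) ≠ (x₂ : K) := by
      intro h
      exact hx (congrArg (rr V) (Subtype.ext h))
    have hrd : rr V (x₁ - x₂) ≠ 0 := by
      rw [map_sub, sub_ne_zero]; exact hx
    obtain ⟨u, hu⟩ := ((IsLocalRing.residue_ne_zero_iff_isUnit _).mp hrd).exists_left_inv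
    have huK : (u : K) = ((x₁ : K) - (x₂ : K))⁻¹ := by
      have : (u : K) * ((x₁ : K) - (x₂ : K)) = 1 := by
        have := congrArg (fun t : V => (t : K)) hu
        simpa using this
      exact eq_inv_of_mul_eq_one_left this
    have hur : rr V u = (rr V x₁ - rr V x₂)⁻¹ := by
      have : rr V u * (rr V x₁ - rr V x₂) = 1 := by rw [← map_sub, ← map_mul, hu, map_one]
      exact eq_inv_of_mul_eq_one_left this
    refine ⟨(y₁ - y₂) * u, ?_, ?_⟩
    · rw [Affine.slope_of_X_ne hxK, div_eq_mul_inv, ← huK]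
      rfl
    · rw [Affine.slope_of_X_ne hx, div_eq_mul_inv, ← hur, map_mul, map_sub]

end Fermat.Agent.Lib.Red.H382
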