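import Mathlib
import Fermat.Agent.Lib.Red.Statement
import Fermat.Agent.Lib.Red.H382.Slope
import Fermat.Agent.Lib.Red.H382.Ker

/-!
# Good reduction, part 3 (helper382): the reduction homomorphism

`V` a valuation subring of a field `K`, `W₀` a Weierstrass curve over `V` with `Δ(W₀) ∈ Vˣ`.
We define the reduction map `W₀(K) → W₀(κ_V)` and prove that it is additive.

Main result: `Fermat.Agent.Lib.Red.H382.goodReduction : Fermat.Agent.Lib.Red.GoodReduction`.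
-/

set_option autoImplicit false
set_option linter.unusedSectionVars false
set_option linter.unusedVariables false

open WeierstrassCurve WeierstrassCurve.Affine WeierstrassCurve.Affine.Point

namespace Fermat.Agent.Lib.Red.H382

open Fermat.Agent.S05.SameRed

universe u

variable {K : Type u} [Field K] [DecidableEq K] (V : ValuationSubring K)
  [DecidableEq (IsLocalRing.ResidueField V)] (W₀ : WeierstrassCurve V)

lemma integralCoeffs : IntegralCoeffs (W₀⁄K) V.valuation where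
  a₁ := V.valuation_le_one W₀.a₁
  a₂ := V.valuation_le_one W₀.a₂
  a₃ := V.valuation_le_one W₀.a₃
  a₄ := V.valuation_le_one W₀.a₄
  a₆ := V.valuation_le_one W₀.a₆

lemma val_Δ_eq_one (hΔ : IsUnit W₀.Δ) : V.valuation (W₀⁄K).Δ = 1 := by
  have h : (W₀⁄K).Δ = ((W₀.Δ : V) : K) := by
    rw [baseChangeK_eq]
    exact WeierstrassCurve.map_Δ W₀ (algebraMap V K)
  rw [h]
  exact (V.valuation_eq_one_iff _).mp hΔ

/-- an affine point with integral `x` has integral `y` -/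
lemma mem_y {x y : K} (h : (W₀⁄K).Equation x y) (hx : x ∈ V) : y ∈ V :=
  (V.valuation_le_one_iff y).mp
    (Fermat.Agent.S05.GoodRed.val_y_le_one (integralCoeffs V W₀) h
      ((V.valuation_le_one_iff x).mpr hx))

lemma rr_eq_iff {a b : V} : rr V a = rr V b ↔ V.valuation ((a : K) - (b : K)) < 1 := by
  rw [← sub_eq_zero, ← map_sub, IsLocalRing.residue_eq_zero_iff, V.valuation_lt_one_iff]
  rfl

lemma some_congr {F : Type*} [Field F] {W : Affine F} {x y x' y' : F} (hx : x = x')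
    (hy : y = y') (h : W.Nonsingular x y) (h' : W.Nonsingular x' y') :
    Point.some x y h = Point.some x' y' h' := by
  subst hx; subst hy; rfl

open Classical in
/-- The reduction map on points. -/
noncomputable def redFun (hΔ : IsUnit W₀.Δ) :
    (W₀⁄K).Point → (W₀⁄(IsLocalRing.ResidueField V)).Point
  | .zero => 0
  | .some x y h =>
    if hx : x ∈ V then
      Point.some (rr V ⟨x, hx⟩) (rr V ⟨y, mem_y V W₀ h.1 hx⟩)
        (nonsingular_κ V W₀ hΔ (x := ⟨x, hx⟩) (y := ⟨y, mem_y V W₀ h.1 hx⟩) h.1)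
    else 0

variable {V W₀}
variable (hΔ : IsUnit W₀.Δ)

lemma redFun_zero : redFun V W₀ hΔ 0 = 0 := rfl

lemma redFun_some_of_mem {x y : K} (h : (W₀⁄K).Nonsingular x y) (hx : x ∈ V) (hy : y ∈ V) :
    redFun V W₀ hΔ (Point.some x y h) =
      Point.some (rr V ⟨x, hx⟩) (rr V ⟨y, hy⟩)
        (nonsingular_κ V W₀ hΔ (x := ⟨x, hx⟩) (y := ⟨y, hy⟩) h.1) := by
  simp only [redFun, dif_pos hx]

lemma redFun_coe (x y : V) (h : (W₀⁄K).Nonsingular (x : K) (y : K)) :
    redFun V W₀ hΔ (Point.some (x : K) (y : K) h) =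
      Point.some (rr V x) (rr V y) (nonsingular_κ V W₀ hΔ h.1) :=
  redFun_some_of_mem hΔ h x.2 y.2

lemma redFun_some_of_not_mem {x y : K} (h : (W₀⁄K).Nonsingular x y) (hx : x ∉ V) :
    redFun V W₀ hΔ (Point.some x y h) = 0 := by
  simp only [redFun, dif_neg hx]

lemma inKer_some_iff {x y : K} (h : (W₀⁄K).Nonsingular x y) :
    InKer (W₀⁄K) V.valuation (Point.some x y h) ↔ x ∉ V := by
  rw [inKer_some, ← V.valuation_le_one_iff, not_le]

lemma redFun_eq_zero_iff (P : (W₀⁄K).Point) :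
    redFun V W₀ hΔ P = 0 ↔ InKer (W₀⁄K) V.valuation P := by
  rcases P with _ | ⟨x, y, h⟩
  · exact ⟨fun _ => inKer_zero, fun _ => rfl⟩
  · rw [inKer_some_iff]
    by_cases hx : x ∈ V
    · rw [redFun_some_of_mem hΔ h hx (mem_y V W₀ h.1 hx)]
      exact ⟨fun h0 => absurd h0 (Point.some_ne_zero _), fun h0 => absurd hx h0⟩
    · rw [redFun_some_of_not_mem hΔ h hx]
      exact ⟨fun _ => hx, fun _ => rfl⟩

lemma redFun_of_inKer {P : (W₀⁄K).Point} (hP : InKer (W₀⁄K) V.valuation P) :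
    redFun V W₀ hΔ P = 0 :=
  (redFun_eq_zero_iff hΔ P).mpr hP

/-- a point not in the kernel of reduction is an integral affine point -/
lemma exists_coe_of_not_inKer {P : (W₀⁄K).Point} (hP : ¬ InKer (W₀⁄K) V.valuation P) :
    ∃ (x y : V) (h : (W₀⁄K).Nonsingular (x : K) (y : K)), P = Point.some (x : K) (y : K) h := by
  rcases P with _ | ⟨x, y, h⟩
  · exact absurd inKer_zero hP
  · rw [inKer_some_iff, not_not] at hP
    exact ⟨⟨x, hP⟩, ⟨y, mem_y V W₀ h.1 hP⟩, h, rfl⟩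

/-- **Lemma A**: sum of two integral points whose reductions are not opposite. -/
theorem add_coe_of_not_opp {x₁ y₁ x₂ y₂ : V}
    (h₁ : (W₀⁄K).Nonsingular (x₁ : K) (y₁ : K)) (h₂ : (W₀⁄K).Nonsingular (x₂ : K) (y₂ : K))
    (hxy : ¬(rr V x₁ = rr V x₂ ∧
      rr V y₁ = (W₀⁄(IsLocalRing.ResidueField V)).negY (rr V x₂) (rr V y₂))) :
    ∃ (x₃ y₃ : V) (h₃ : (W₀⁄K).Nonsingular (x₃ : K) (y₃ : K)),
      Point.some (x₁ : K) (y₁ : K) h₁ + Point.some (x₂ : K) (y₂ : K) h₂ =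
        Point.some (x₃ : K) (y₃ : K) h₃ ∧
      redFun V W₀ hΔ (Point.some (x₁ : K) (y₁ : K) h₁) +
        redFun V W₀ hΔ (Point.some (x₂ : K) (y₂ : K) h₂) =
        redFun V W₀ hΔ (Point.some (x₃ : K) (y₃ : K) h₃) := by
  obtain ⟨ℓ, hℓK, hℓκ⟩ := exists_slope V W₀ h₁.1 h₂.1 hxy
  have hxyK : ¬((x₁ : K) = (x₂ : K) ∧ (y₁ : K) = (W₀⁄K).negY (x₂ : K) (y₂ : K)) := by
    rintro ⟨hx, hy⟩
    apply hxy
    have hxV : x₁ = x₂ := Subtype.ext hx
    have hyV : y₁ = W₀.toAffine.negY x₂ y₂ := by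
      apply Subtype.ext
      rw [hy, negY_K]
    exact ⟨congrArg _ hxV, by rw [hyV, negY_κ]⟩
  set x₃ : V := W₀.toAffine.addX x₁ x₂ ℓ with hx₃
  set y₃ : V := W₀.toAffine.addY x₁ x₂ y₁ ℓ with hy₃
  have hX : (W₀⁄K).addX (x₁ : K) (x₂ : K) ((W₀⁄K).slope (x₁ : K) (x₂ : K) (y₁ : K) (y₂ : K)) =
      (x₃ : K) := by
    rw [hℓK, addX_K]
  have hY : (W₀⁄K).addY (x₁ : K) (x₂ : K) (y₁ : K)
      ((W₀⁄K).slope (x₁ : K) (x₂ : K) (y₁ : K) (y₂ : K)) = (y₃ : K) := by
    rw [hℓK, addY_K]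
  have h₃' := Affine.nonsingular_add h₁ h₂ hxyK
  have h₃ : (W₀⁄K).Nonsingular (x₃ : K) (y₃ : K) := by
    rw [← hX, ← hY]; exact h₃'
  refine ⟨x₃, y₃, h₃, ?_, ?_⟩
  · rw [Point.add_some hxyK]
    exact some_congr hX hY _ _
  · rw [redFun_coe, redFun_coe, redFun_coe, Point.add_some hxy]
    refine some_congr ?_ ?_ _ _
    · rw [hℓκ, addX_κ]
    · rw [hℓκ, addY_κ]

/-- **Lemma B**: sum of two integral points with opposite reductions. -/
theorem inKer_add_of_opp (hΔ : IsUnit W₀.Δ) {x₁ y₁ x₂ y₂ : V}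
    (h₁ : (W₀⁄K).Nonsingular (x₁ : K) (y₁ : K)) (h₂ : (W₀⁄K).Nonsingular (x₂ : K) (y₂ : K))
    (hxy : rr V x₁ = rr V x₂ ∧
      rr V y₁ = (W₀⁄(IsLocalRing.ResidueField V)).negY (rr V x₂) (rr V y₂)) :
    InKer (W₀⁄K) V.valuation
      (Point.some (x₁ : K) (y₁ : K) h₁ + Point.some (x₂ : K) (y₂ : K) h₂) := by
  have hW := integralCoeffs V W₀
  have h₂' : (W₀⁄K).Nonsingular (x₂ : K) ((W₀⁄K).negY (x₂ : K) (y₂ : K)) :=
    (Affine.nonsingular_neg ..).mpr h₂
  have hneg : Point.some (x₂ : K) (y₂ : K) h₂ =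
      -Point.some (x₂ : K) ((W₀⁄K).negY (x₂ : K) (y₂ : K)) h₂' := by
    rw [Point.neg_some]
    exact some_congr rfl (Affine.negY_negY ..).symm _ _
  rw [hneg, ← sub_eq_add_neg]
  have hx : V.valuation ((x₁ : K) - (x₂ : K)) < 1 := (rr_eq_iff V).mp hxy.1
  have hy : V.valuation ((y₁ : K) - (W₀⁄K).negY (x₂ : K) (y₂ : K)) < 1 := by
    rw [negY_K]
    apply (rr_eq_iff V).mp
    rw [hxy.2, negY_κ]
  have hns := Fermat.Agent.S05.GoodRed.nonsingular_reduction_of_val_Δ hW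
    (val_Δ_eq_one V W₀ hΔ) h₁.1 (V.valuation_le_one x₁)
  refine inKer_sub_of_same_reduction hW h₁ h₂' (V.valuation_le_one x₁) (V.valuation_le_one y₁)
    (V.valuation_le_one x₂) ?_ hx hy hns
  rw [negY_K]
  exact V.valuation_le_one _

/-- additivity for two integral points -/
theorem redFun_add_coe {x₁ y₁ x₂ y₂ : V}
    (h₁ : (W₀⁄K).Nonsingular (x₁ : K) (y₁ : K)) (h₂ : (W₀⁄K).Nonsingular (x₂ : K) (y₂ : K)) :
    redFun V W₀ hΔ (Point.some (x₁ : K) (y₁ : K) h₁ + Point.some (x₂ : K) (y₂ : K) h₂) =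
      redFun V W₀ hΔ (Point.some (x₁ : K) (y₁ : K) h₁) +
        redFun V W₀ hΔ (Point.some (x₂ : K) (y₂ : K) h₂) := by
  by_cases hxy : rr V x₁ = rr V x₂ ∧
      rr V y₁ = (W₀⁄(IsLocalRing.ResidueField V)).negY (rr V x₂) (rr V y₂)
  · rw [redFun_of_inKer hΔ (inKer_add_of_opp hΔ h₁ h₂ hxy), redFun_coe, redFun_coe,
      Point.add_of_Y_eq hxy.1 hxy.2]
  · obtain ⟨x₃, y₃, h₃, hadd, hred⟩ := add_coe_of_not_opp hΔ h₁ h₂ hxy
    rw [hadd, hred]

lemma redFun_neg_coe {x y : V} (h : (W₀⁄K).Nonsingular (x : K) (y : K)) :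
    redFun V W₀ hΔ (-Point.some (x : K) (y : K) h) =
      -redFun V W₀ hΔ (Point.some (x : K) (y : K) h) := by
  rw [Point.neg_some, redFun_coe, Point.neg_some]
  have h' : (W₀⁄K).Nonsingular (x : K) ((W₀.toAffine.negY x y : V) : K) := by
    rw [← negY_K]; exact (Affine.nonsingular_neg ..).mpr h
  have e : Point.some (x : K) ((W₀⁄K).negY (x : K) (y : K)) ((Affine.nonsingular_neg ..).mpr h) =
      Point.some (x : K) ((W₀.toAffine.negY x y : V) : K) h' :=
    some_congr rfl (negY_K V W₀ x y) _ _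
  rw [e, redFun_coe]
  exact some_congr rfl (negY_κ V W₀ x y).symm _ _

/-- **Lemma D**: kernel point plus integral point. -/
theorem redFun_add_of_inKer {P Q : (W₀⁄K).Point} (hP : InKer (W₀⁄K) V.valuation P) :
    redFun V W₀ hΔ (P + Q) = redFun V W₀ hΔ Q := by
  have hW := integralCoeffs V W₀
  by_cases hQ : InKer (W₀⁄K) V.valuation Q
  · rw [redFun_of_inKer hΔ (inKer_add hW hP hQ), redFun_of_inKer hΔ hQ]
  · -- `Q` is integral
    have hR : ¬ InKer (W₀⁄K) V.valuation (P + Q) := by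
      intro hR
      apply hQ
      have : Q = (P + Q) - P := by abel
      rw [this]
      exact inKer_sub hW hR hP
    obtain ⟨x₂, y₂, h₂, rfl⟩ := exists_coe_of_not_inKer hQ
    obtain ⟨x₃, y₃, h₃, hR3⟩ := exists_coe_of_not_inKer hR
    rw [hR3]
    -- compare `R` and `Q` through `R + (-Q) = P`
    by_contra hne
    have hnegQ : -Point.some (x₂ : K) (y₂ : K) h₂ =
        Point.some (x₂ : K) ((W₀.toAffine.negY x₂ y₂ : V) : K)
          (by rw [← negY_K]; exact (Affine.nonsingular_neg ..).mpr h₂) := by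
      rw [Point.neg_some]
      exact some_congr rfl (negY_K V W₀ x₂ y₂) _ _
    have hxy : ¬(rr V x₃ = rr V x₂ ∧ rr V y₃ =
        (W₀⁄(IsLocalRing.ResidueField V)).negY (rr V x₂) (rr V (W₀.toAffine.negY x₂ y₂))) := by
      rintro ⟨hx, hy⟩
      apply hne
      rw [redFun_coe, redFun_coe]
      refine some_congr hx ?_ _ _
      rw [hy, ← negY_κ, Affine.negY_negY]
    obtain ⟨x₄, y₄, h₄, hadd, -⟩ := add_coe_of_not_opp hΔ h₃
      (by rw [← negY_K]; exact (Affine.nonsingular_neg ..).mpr h₂) hxy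
    rw [← hnegQ, ← hR3] at hadd
    have hPeq : P = Point.some (x₄ : K) (y₄ : K) h₄ := by
      rw [← hadd]; abel
    rw [hPeq, inKer_some_iff] at hP
    exact hP x₄.2

/-- **The reduction map is additive.** -/
theorem redFun_add (P Q : (W₀⁄K).Point) :
    redFun V W₀ hΔ (P + Q) = redFun V W₀ hΔ P + redFun V W₀ hΔ Q := by
  by_cases hP : InKer (W₀⁄K) V.valuation P
  · rw [redFun_add_of_inKer hΔ hP, redFun_of_inKer hΔ hP, zero_add]
  · by_cases hQ : InKer (W₀⁄K) V.valuation Q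
    · rw [add_comm P Q, redFun_add_of_inKer hΔ hQ, redFun_of_inKer hΔ hQ, add_zero]
    · obtain ⟨x₁, y₁, h₁, rfl⟩ := exists_coe_of_not_inKer hP
      obtain ⟨x₂, y₂, h₂, rfl⟩ := exists_coe_of_not_inKer hQ
      exact redFun_add_coe hΔ h₁ h₂

variable (V W₀)

/-- The reduction homomorphism. -/
noncomputable def red : (W₀⁄K).Point →+ (W₀⁄(IsLocalRing.ResidueField V)).Point :=
  AddMonoidHom.mk' (redFun V W₀ hΔ) (redFun_add hΔ)

end Fermat.Agent.Lib.Red.H382

namespace Fermat.Agent.Lib.Red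

universe u

open Fermat.Agent.Lib.Red.H382 in
/-- **GR**: the reduction homomorphism for good reduction (helper382's proof). -/
theorem H382.goodReduction : GoodReduction.{u} := by
  intro K _ _ V _ W₀ hΔ
  refine ⟨H382.red V W₀ hΔ, ?_, ?_⟩
  · intro x y h hx hy
    exact ⟨nonsingular_κ V W₀ hΔ (x := ⟨x, hx⟩) (y := ⟨y, hy⟩) h.1,
      redFun_some_of_mem hΔ h hx hy⟩
  · intro x y h hx
    exact redFun_some_of_not_mem hΔ h hx

end Fermat.Agent.Lib.Red
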